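/-
S53 (existence of the universal deformation ring): shared definitions.
Matrix-valued Galois representations, their associated `GaloisRepAdic`, frames for `ρbar`,
and rigid lifts.  Architecture notes: see team msgs (helper2).
-/
import Mathlib
import Fermat.Prelude.Def_GaloisRep_DeformationRingData
import Fermat.Prelude.Def_GaloisRep_DeformationCondition

set_option autoImplicit false
set_option linter.unusedSectionVars false

namespace Fermat.Agent.Lib.S53

open IsLocalRing

/-- The absolute Galois group of `ℚ`. -/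
abbrev GQ : Type := AlgebraicClosure ℚ ≃ₐ[ℚ] AlgebraicClosure ℚ

/-- A matrix-valued, adically continuous representation of `G_ℚ` over a local ring `A`. -/
structure MatRep (A : Type) [CommRing A] [IsLocalRing A] where
  /-- the underlying monoid homomorphism -/
  r : GQ →* Matrix (Fin 2) (Fin 2) A
  /-- adic continuity: modulo `𝔪^n` the representation factors through a finite level -/
  cont : ∀ n : ℕ, ∃ L : IntermediateField ℚ (AlgebraicClosure ℚ), FiniteDimensional ℚ L ∧
    ∀ σ : GQ, (∀ x ∈ L, σ x = x) → ∀ i j, (r σ - 1) i j ∈ maximalIdeal A ^ n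

namespace MatRep

variable {A : Type} [CommRing A] [IsLocalRing A]

@[ext]
theorem ext {ρ ρ' : MatRep A} (h : ∀ σ, ρ.r σ = ρ'.r σ) : ρ = ρ' := by
  cases ρ; cases ρ'
  congr
  exact MonoidHom.ext h

/-- The endomorphism-valued representation on `Fin 2 → A` attached to a matrix representation. -/
noncomputable def toEndHom (ρ : MatRep A) : GQ →* Module.End A (Fin 2 → A) :=
  ((Matrix.toLinAlgEquiv' : Matrix (Fin 2) (Fin 2) A ≃ₐ[A] Module.End A (Fin 2 → A)) :
    Matrix (Fin 2) (Fin 2) A →* Module.End A (Fin 2 → A)).comp ρ.r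

@[simp]
theorem toEndHom_apply (ρ : MatRep A) (σ : GQ) (v : Fin 2 → A) :
    ρ.toEndHom σ v = (ρ.r σ).mulVec v := rfl

theorem vec_mem_smul_top (I : Ideal A) (w : Fin 2 → A) (hw : ∀ i, w i ∈ I) :
    w ∈ I • (⊤ : Submodule A (Fin 2 → A)) := by
  have h2 : w = w 0 • (Pi.single 0 (1 : A) : Fin 2 → A) + w 1 • (Pi.single 1 (1 : A) : Fin 2 → A) := by
    ext a
    fin_cases a <;> simp
  rw [h2]
  exact Submodule.add_mem _ (Submodule.smul_mem_smul (hw 0) Submodule.mem_top)
    (Submodule.smul_mem_smul (hw 1) Submodule.mem_top)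

theorem mulVec_sub_mem (M : Matrix (Fin 2) (Fin 2) A) (I : Ideal A)
    (hM : ∀ i j, (M - 1) i j ∈ I) (v : Fin 2 → A) :
    M.mulVec v - v ∈ I • (⊤ : Submodule A (Fin 2 → A)) := by
  have h1 : M.mulVec v - v = (M - 1).mulVec v := by
    rw [Matrix.sub_mulVec, Matrix.one_mulVec]
  rw [h1]
  apply vec_mem_smul_top
  intro i
  rw [Matrix.mulVec, dotProduct]
  exact Ideal.sum_mem _ fun j _ => Ideal.mul_mem_right _ _ (hM i j)

/-- The `GaloisRepAdic` attached to a matrix representation. -/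
noncomputable def toGaloisRepAdic (ρ : MatRep A) : GaloisRepAdic A where
  V := Fin 2 → A
  finrank_eq := by simp
  ρ := ρ.toEndHom
  isAdicContinuous := by
    intro n
    obtain ⟨L, hL, h⟩ := ρ.cont n
    refine ⟨L, hL, fun σ hσ v => ?_⟩
    rw [toEndHom_apply]
    exact mulVec_sub_mem _ _ (h σ hσ) v

/-- Push a matrix representation forward along a local ring homomorphism. -/
noncomputable def map {B : Type} [CommRing B] [IsLocalRing B] (φ : A →+* B) (hφ : IsLocalHom φ)
    (ρ : MatRep A) : MatRep B where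
  r := ((RingHom.mapMatrix φ : Matrix (Fin 2) (Fin 2) A →+* Matrix (Fin 2) (Fin 2) B) :
    Matrix (Fin 2) (Fin 2) A →* Matrix (Fin 2) (Fin 2) B).comp ρ.r
  cont := by
    intro n
    obtain ⟨L, hL, h⟩ := ρ.cont n
    refine ⟨L, hL, fun σ hσ i j => ?_⟩
    have hmap : (maximalIdeal A ^ n).map φ ≤ maximalIdeal B ^ n := by
      rw [Ideal.map_pow]
      exact Ideal.pow_right_mono (Ideal.map_le_iff_le_comap.mpr fun a ha =>
        Ideal.mem_comap.mpr (haveI := hφ; map_nonunit φ a ha)) n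
    have h1 : ((RingHom.mapMatrix φ) (ρ.r σ) - 1) i j = φ ((ρ.r σ - 1) i j) := by
      simp only [RingHom.mapMatrix_apply, Matrix.sub_apply, Matrix.map_apply, map_sub]
      congr 1
      by_cases hij : i = j
      · subst hij; simp
      · simp [Matrix.one_apply_ne hij]
    show ((RingHom.mapMatrix φ) (ρ.r σ) - 1) i j ∈ maximalIdeal B ^ n
    rw [h1]
    exact hmap (Ideal.mem_map_of_mem φ (h σ hσ i j))

@[simp]
theorem map_r_apply {B : Type} [CommRing B] [IsLocalRing B] (φ : A →+* B) (hφ : IsLocalHom φ)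
    (ρ : MatRep A) (σ : GQ) (i j : Fin 2) : (ρ.map φ hφ).r σ i j = φ (ρ.r σ i j) := rfl

/-- Conjugate a matrix representation by an invertible matrix. -/
noncomputable def conj (ρ : MatRep A) (C : (Matrix (Fin 2) (Fin 2) A)ˣ) : MatRep A where
  r :=
    { toFun := fun σ => (C⁻¹).val * ρ.r σ * C.val
      map_one' := by simp
      map_mul' := fun σ τ => by
        simp only [map_mul]
        calc (C⁻¹).val * (ρ.r σ * ρ.r τ) * C.val
            = (C⁻¹).val * ρ.r σ * (C.val * (C⁻¹).val) * ρ.r τ * C.val := by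
              rw [Units.mul_inv, mul_one]; simp only [mul_assoc]
          _ = _ := by simp only [mul_assoc] }
  cont := by
    intro n
    obtain ⟨L, hL, h⟩ := ρ.cont n
    refine ⟨L, hL, fun σ hσ i j => ?_⟩
    have h1 : ((C⁻¹).val * ρ.r σ * C.val - 1)
        = (C⁻¹).val * (ρ.r σ - 1) * C.val := by
      rw [mul_sub, sub_mul, mul_one, Units.inv_mul]
    show ((C⁻¹).val * ρ.r σ * C.val - 1) i j ∈ maximalIdeal A ^ n
    rw [h1, Matrix.mul_apply]
    refine Ideal.sum_mem _ fun a _ => ?_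
    rw [Matrix.mul_apply]
    refine Ideal.mul_mem_right _ _ (Ideal.sum_mem _ fun b _ => ?_)
    exact Ideal.mul_mem_left _ _ (h σ hσ b a)

@[simp]
theorem conj_r_apply (ρ : MatRep A) (C : (Matrix (Fin 2) (Fin 2) A)ˣ) (σ : GQ) :
    (ρ.conj C).r σ = (C⁻¹).val * ρ.r σ * C.val := rfl

end MatRep

/-! ### Frames -/

section Frame

variable (𝒪 : Type) [CommRing 𝒪] [IsLocalRing 𝒪]

/-- A frame for the residual representation: a basis in which `ρbar g₀` has first column
`(0, 1)`, together with an element `g₁` and an entry `(i, j)` at which the commutator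
`[ρbar g₀, ρbar g₁]` does not vanish, and a lift `c` to `𝒪` of the `(i, j)` entry of `ρbar g₁`. -/
structure Frame (ρbar : ResidualGaloisRep (ResidueField 𝒪)) where
  /-- the chosen basis -/
  b : Module.Basis (Fin 2) (ResidueField 𝒪) ρbar.V
  g₀ : GQ
  g₁ : GQ
  i : Fin 2
  j : Fin 2
  c : 𝒪
  col_zero : LinearMap.toMatrix b b (ρbar.ρ g₀) 0 0 = 0
  col_one : LinearMap.toMatrix b b (ρbar.ρ g₀) 1 0 = 1
  comm_ne : (LinearMap.toMatrix b b (ρbar.ρ g₀) * LinearMap.toMatrix b b (ρbar.ρ g₁)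
    - LinearMap.toMatrix b b (ρbar.ρ g₁) * LinearMap.toMatrix b b (ρbar.ρ g₀)) i j ≠ 0
  c_spec : residue 𝒪 c = LinearMap.toMatrix b b (ρbar.ρ g₁) i j

variable {𝒪}

/-- The matrices of `ρbar` in the frame. -/
noncomputable def Frame.mat {ρbar : ResidualGaloisRep (ResidueField 𝒪)} (F : Frame 𝒪 ρbar)
    (σ : GQ) : Matrix (Fin 2) (Fin 2) (ResidueField 𝒪) :=
  LinearMap.toMatrix F.b F.b (ρbar.ρ σ)

theorem Frame.mat_mul {ρbar : ResidualGaloisRep (ResidueField 𝒪)} (F : Frame 𝒪 ρbar)
    (σ τ : GQ) : F.mat (σ * τ) = F.mat σ * F.mat τ := by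
  unfold Frame.mat
  rw [map_mul, ← LinearMap.toMatrix_mul]

theorem Frame.mat_one {ρbar : ResidualGaloisRep (ResidueField 𝒪)} (F : Frame 𝒪 ρbar) :
    F.mat 1 = 1 := by
  unfold Frame.mat
  rw [map_one, LinearMap.toMatrix_one]

variable {A : Type} [CommRing A] [IsLocalRing A] [Algebra 𝒪 A] [IsLocalHom (algebraMap 𝒪 A)]

/-- The matrix representation `ρ` reduces exactly to `ρbar` (in the frame `F`). -/
def ReducesTo {ρbar : ResidualGaloisRep (ResidueField 𝒪)} (F : Frame 𝒪 ρbar) (ρ : MatRep A) :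
    Prop :=
  ∀ (σ : GQ) (a b : Fin 2),
    residue A (ρ.r σ a b) = ResidueField.map (algebraMap 𝒪 A) (F.mat σ a b)

/-- A rigid lift: reduces exactly to `ρbar`, `ρ g₀ e₁ = e₂`, and the `(i,j)` entry of `ρ g₁`
is the fixed lift `c`. -/
structure IsRigid {ρbar : ResidualGaloisRep (ResidueField 𝒪)} (F : Frame 𝒪 ρbar) (ρ : MatRep A) :
    Prop where
  reduces : ReducesTo F ρ
  col_zero : ρ.r F.g₀ 0 0 = 0
  col_one : ρ.r F.g₀ 1 0 = 1
  entry : ρ.r F.g₁ F.i F.j = algebraMap 𝒪 A F.c

end Frame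

end Fermat.Agent.Lib.S53
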