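/-
S53, part (A): Schur's lemma for an absolutely irreducible residual representation and
existence of a frame.
-/
import Mathlib
import Fermat.Agent.Lib.S53.Defs

set_option autoImplicit false
set_option linter.unusedSectionVars false

namespace Fermat.Agent.Lib.S53

open IsLocalRing TensorProduct

section Schur

variable {k : Type} [Field k] (ρbar : ResidualGaloisRep k)

/-- **Schur's lemma**: an endomorphism commuting with an absolutely irreducible representation
is a scalar. -/
theorem schur_of_isAbsolutelyIrreducible (habs : ρbar.IsAbsolutelyIrreducible)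
    (C : Module.End k ρbar.V) (hC : ∀ σ : GQ, C * ρbar.ρ σ = ρbar.ρ σ * C) :
    ∃ c : k, C = c • (1 : Module.End k ρbar.V) := by
  classical
  set K := AlgebraicClosure k
  set VK := K ⊗[k] ρbar.V
  have hfr : Module.finrank K VK = 2 := by
    rw [Module.finrank_baseChange, ρbar.finrank_eq]
  have : FiniteDimensional K VK := Module.finite_of_finrank_eq_succ hfr
  have : Nontrivial VK := Module.nontrivial_of_finrank_pos (R := K) (by rw [hfr]; norm_num)
  set CK : Module.End K VK := C.baseChange K with hCK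
  obtain ⟨μ, hμ⟩ := Module.End.exists_eigenvalue CK
  -- the eigenspace is stable, hence everything
  have hstable : ∀ σ : GQ, ∀ x ∈ Module.End.eigenspace CK μ,
      (ρbar.baseChange K).ρ σ x ∈ Module.End.eigenspace CK μ := by
    intro σ x hx
    rw [Module.End.mem_eigenspace_iff] at hx ⊢
    have hcomm : CK * (ρbar.ρ σ).baseChange K = (ρbar.ρ σ).baseChange K * CK := by
      rw [hCK, ← LinearMap.baseChange_mul, ← LinearMap.baseChange_mul, hC σ]
    show CK ((ρbar.ρ σ).baseChange K x) = μ • (ρbar.ρ σ).baseChange K x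
    have := congrArg (fun f : Module.End K VK => f x) hcomm
    simp only [Module.End.mul_apply] at this
    rw [this, hx, map_smul]
  have htop : Module.End.eigenspace CK μ = ⊤ := by
    rcases habs (Module.End.eigenspace CK μ) hstable with h | h
    · exact absurd h hμ
    · exact h
  have hCKμ : ∀ x : VK, CK x = μ • x := fun x =>
    Module.End.mem_eigenspace_iff.mp (htop ▸ Submodule.mem_top)
  -- descend to `k` using a basis
  have : Module.Finite k ρbar.V := Module.finite_of_finrank_eq_succ ρbar.finrank_eq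
  let b : Module.Basis (Fin 2) k ρbar.V := Module.finBasisOfFinrankEq k ρbar.V ρbar.finrank_eq
  let bK : Module.Basis (Fin 2) K VK := b.baseChange K
  have hrepr : ∀ i j : Fin 2, algebraMap k K (b.repr (C (b i)) j) = if j = i then μ else 0 := by
    intro i j
    have h1 : CK (bK i) = μ • bK i := hCKμ _
    have h2 : bK i = (1 : K) ⊗ₜ[k] b i := Module.Basis.baseChange_apply (S := K) b i
    rw [h2, hCK, LinearMap.baseChange_tmul] at h1
    have h3 := congrArg (fun x => bK.repr x j) h1
    simp only [map_smul, Finsupp.smul_apply, smul_eq_mul] at h3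
    have h4 : bK.repr ((1 : K) ⊗ₜ[k] C (b i)) j = algebraMap k K (b.repr (C (b i)) j) := by
      rw [Module.Basis.baseChange_repr_tmul (S := K) b, Algebra.smul_def, mul_one]
    have h5 : bK.repr ((1 : K) ⊗ₜ[k] b i) j = if j = i then 1 else 0 := by
      rw [← h2, Module.Basis.repr_self, Finsupp.single_apply]
      simp [eq_comm]
    rw [h4, h5] at h3
    rw [h3]
    split_ifs <;> simp
  have hinj : Function.Injective (algebraMap k K) := (algebraMap k K).injective
  refine ⟨b.repr (C (b 0)) 0, ?_⟩
  apply b.ext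
  intro i
  apply b.repr.injective
  ext j
  simp only [LinearMap.smul_apply, Module.End.one_apply, map_smul, Finsupp.smul_apply,
    Module.Basis.repr_self, smul_eq_mul]
  apply hinj
  rw [hrepr i j, map_mul, hrepr 0 0, if_pos rfl, Finsupp.single_apply]
  by_cases hji : j = i
  · subst hji; simp
  · rw [if_neg hji, if_neg (fun h => hji h.symm)]; simp

/-- Some `ρbar g₀` is not a scalar. -/
theorem exists_not_scalar (habs : ρbar.IsAbsolutelyIrreducible) :
    ∃ g₀ : GQ, ¬ ∃ c : k, ρbar.ρ g₀ = c • (1 : Module.End k ρbar.V) := by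
  classical
  by_contra hcon
  push Not at hcon
  have hall : ∀ C : Module.End k ρbar.V, ∃ c : k, C = c • (1 : Module.End k ρbar.V) := by
    intro C
    refine schur_of_isAbsolutelyIrreducible ρbar habs C fun σ => ?_
    obtain ⟨c, hc⟩ := hcon σ
    rw [hc]
    simp
  let b : Module.Basis (Fin 2) k ρbar.V := Module.finBasisOfFinrankEq k ρbar.V ρbar.finrank_eq
  obtain ⟨c, hc⟩ := hall (b.constr k ![b 1, 0])
  have h1 := congrArg (fun f : Module.End k ρbar.V => b.repr (f (b 0)) 1) hc
  simp at h1

/-- A non-scalar endomorphism of a 2-dimensional space has a cyclic vector. -/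
theorem exists_cyclic_of_not_scalar (M : Module.End k ρbar.V)
    (hM : ¬ ∃ c : k, M = c • (1 : Module.End k ρbar.V)) :
    ∃ e : ρbar.V, LinearIndependent k ![e, M e] := by
  classical
  by_contra hcon
  push Not at hcon
  have hev : ∀ e : ρbar.V, e ≠ 0 → ∃ a : k, a • e = M e := by
    intro e he
    have := hcon e
    rw [LinearIndependent.pair_iff' he] at this
    push Not at this
    exact this
  let b : Module.Basis (Fin 2) k ρbar.V := Module.finBasisOfFinrankEq k ρbar.V ρbar.finrank_eq
  obtain ⟨a0, h0⟩ := hev (b 0) (b.ne_zero 0)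
  obtain ⟨a1, h1⟩ := hev (b 1) (b.ne_zero 1)
  have hne : b 0 + b 1 ≠ 0 := by
    intro h
    have := congrArg (fun v => b.repr v 0) h
    simp at this
  obtain ⟨a2, h2⟩ := hev (b 0 + b 1) hne
  rw [map_add, ← h0, ← h1, smul_add] at h2
  have e0 := congrArg (fun v => b.repr v 0) h2
  have e1 := congrArg (fun v => b.repr v 1) h2
  simp at e0 e1
  apply hM
  refine ⟨a2, ?_⟩
  apply b.ext
  intro i
  fin_cases i
  · simp [← h0, e0]
  · simp [← h1, e1]

end Schur

section ExistsFrame

variable {𝒪 : Type} [CommRing 𝒪] [IsLocalRing 𝒪] (ρbar : ResidualGaloisRep (ResidueField 𝒪))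

/-- An absolutely irreducible residual representation admits a frame. -/
theorem exists_frame (habs : ρbar.IsAbsolutelyIrreducible) : Nonempty (Frame 𝒪 ρbar) := by
  classical
  obtain ⟨g₀, hg₀⟩ := exists_not_scalar ρbar habs
  obtain ⟨e, he⟩ := exists_cyclic_of_not_scalar ρbar (ρbar.ρ g₀) hg₀
  have hcard : Fintype.card (Fin 2) = Module.finrank (ResidueField 𝒪) ρbar.V := by
    rw [ρbar.finrank_eq]; rfl
  let b : Module.Basis (Fin 2) (ResidueField 𝒪) ρbar.V :=
    basisOfLinearIndependentOfCardEqFinrank he hcard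
  have hb : ⇑b = ![e, ρbar.ρ g₀ e] := coe_basisOfLinearIndependentOfCardEqFinrank he hcard
  have hb0 : b 0 = e := by rw [hb]; rfl
  have hb1 : b 1 = ρbar.ρ g₀ e := by rw [hb]; rfl
  have hM0 : ρbar.ρ g₀ (b 0) = b 1 := by rw [hb0, hb1]
  -- a non-commuting element
  have hg₁ : ∃ g₁ : GQ, ρbar.ρ g₀ * ρbar.ρ g₁ ≠ ρbar.ρ g₁ * ρbar.ρ g₀ := by
    by_contra hcon
    push Not at hcon
    exact hg₀ (schur_of_isAbsolutelyIrreducible ρbar habs (ρbar.ρ g₀) hcon)
  obtain ⟨g₁, hg₁⟩ := hg₁
  have hmat : LinearMap.toMatrix b b (ρbar.ρ g₀) * LinearMap.toMatrix b b (ρbar.ρ g₁)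
      - LinearMap.toMatrix b b (ρbar.ρ g₁) * LinearMap.toMatrix b b (ρbar.ρ g₀) ≠ 0 := by
    rw [← LinearMap.toMatrix_mul, ← LinearMap.toMatrix_mul, ← map_sub]
    intro h
    apply hg₁
    have := (LinearMap.toMatrix b b).injective (h.trans (map_zero _).symm)
    exact sub_eq_zero.mp this
  have hij : ∃ i j : Fin 2,
      (LinearMap.toMatrix b b (ρbar.ρ g₀) * LinearMap.toMatrix b b (ρbar.ρ g₁)
      - LinearMap.toMatrix b b (ρbar.ρ g₁) * LinearMap.toMatrix b b (ρbar.ρ g₀)) i j ≠ 0 := by
    by_contra hcon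
    push Not at hcon
    exact hmat (Matrix.ext hcon)
  obtain ⟨i, j, hij⟩ := hij
  obtain ⟨c, hc⟩ := residue_surjective (LinearMap.toMatrix b b (ρbar.ρ g₁) i j)
  refine ⟨⟨b, g₀, g₁, i, j, c, ?_, ?_, hij, hc⟩⟩
  · rw [LinearMap.toMatrix_apply, hM0]; simp
  · rw [LinearMap.toMatrix_apply, hM0]; simp

end ExistsFrame

end Fermat.Agent.Lib.S53
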