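/-
S53: a compactness lemma for adically (pre)complete rings all of whose quotients by powers of
the ideal are finite.  A family of "open cosets" `a j + I j` with the finite intersection
property has nonempty intersection.  (Mathlib-only.)
-/
import Mathlib

set_option autoImplicit false

namespace Fermat.Agent.Lib.S53

section Compact

variable {S : Type*} [CommRing S] (𝔫 : Ideal S) {ι : Type*} (I : ι → Ideal S) (a : ι → S)

/-- `c` is good at level `m` if every finite subfamily of the congruences can be solved by some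
`f ≡ c mod 𝔫 ^ m`. -/
def CompactGood (m : ℕ) (c : S) : Prop :=
  ∀ F : Finset ι, ∃ f : S, f - c ∈ 𝔫 ^ m ∧ ∀ j ∈ F, f - a j ∈ I j

theorem compactGood_zero (hfip : ∀ F : Finset ι, ∃ f : S, ∀ j ∈ F, f - a j ∈ I j) (c : S) :
    CompactGood 𝔫 I a 0 c := by
  intro F
  obtain ⟨f, hf⟩ := hfip F
  exact ⟨f, by simp, hf⟩

theorem compactGood_step (m : ℕ) (hfin : Finite (S ⧸ 𝔫 ^ (m + 1))) (c : S)
    (hc : CompactGood 𝔫 I a m c) :
    ∃ c' : S, c' - c ∈ 𝔫 ^ m ∧ CompactGood 𝔫 I a (m + 1) c' := by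
  classical
  by_contra hcon
  push Not at hcon
  have h : ∀ c' : S, c' - c ∈ 𝔫 ^ m → ∃ F : Finset ι, ∀ f : S, f - c' ∈ 𝔫 ^ (m + 1) →
      ¬ ∀ j ∈ F, f - a j ∈ I j := by
    intro c' hc'
    have := hcon c' hc'
    unfold CompactGood at this
    push Not at this
    obtain ⟨F, hF⟩ := this
    refine ⟨F, fun f hf hall => ?_⟩
    obtain ⟨j, hjF, hj⟩ := hF f hf
    exact hj (hall j hjF)
  choose! Fbad hFbad using h
  let _ : Fintype (S ⧸ 𝔫 ^ (m + 1)) := Fintype.ofFinite _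
  let F : Finset ι := Finset.univ.biUnion fun q : S ⧸ 𝔫 ^ (m + 1) => Fbad (Quotient.out q)
  obtain ⟨f, hfc, hfF⟩ := hc F
  set c' : S := Quotient.out (Ideal.Quotient.mk (𝔫 ^ (m + 1)) f) with hc'def
  have h1 : f - c' ∈ 𝔫 ^ (m + 1) := by
    rw [← Ideal.Quotient.eq]
    exact (Quotient.out_eq (Ideal.Quotient.mk (𝔫 ^ (m + 1)) f)).symm
  have h2 : c' - c ∈ 𝔫 ^ m := by
    have h3 : c' - f ∈ 𝔫 ^ m := by
      have := Ideal.pow_le_pow_right (I := 𝔫) (Nat.le_succ m) h1
      rw [← neg_sub]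
      exact neg_mem this
    have : c' - c = (c' - f) + (f - c) := by ring
    rw [this]
    exact Ideal.add_mem _ h3 hfc
  refine hFbad c' h2 f h1 fun j hj => hfF j ?_
  exact Finset.mem_biUnion.mpr ⟨Ideal.Quotient.mk (𝔫 ^ (m + 1)) f, Finset.mem_univ _, hj⟩

/-- **Compactness lemma.**  Let `S` be `𝔫`-adically precomplete with all `S ⧸ 𝔫 ^ m` finite.  A
family of cosets `a j + I j` of open ideals (each `I j` contains a power of `𝔫`) with the finite
intersection property has a common element. -/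
theorem exists_forall_sub_mem_of_finite_quotients [IsPrecomplete 𝔫 S]
    (hfin : ∀ m : ℕ, Finite (S ⧸ 𝔫 ^ m))
    (hopen : ∀ j, ∃ m : ℕ, 𝔫 ^ m ≤ I j)
    (hfip : ∀ F : Finset ι, ∃ f : S, ∀ j ∈ F, f - a j ∈ I j) :
    ∃ f : S, ∀ j, f - a j ∈ I j := by
  classical
  -- build a compatible sequence of good elements
  let seq : (m : ℕ) → {c : S // CompactGood 𝔫 I a m c} := fun m =>
    Nat.rec (motive := fun m => {c : S // CompactGood 𝔫 I a m c})
      ⟨0, compactGood_zero 𝔫 I a hfip 0⟩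
      (fun m prev =>
        ⟨Classical.choose (compactGood_step 𝔫 I a m (hfin (m + 1)) prev.1 prev.2),
          (Classical.choose_spec (compactGood_step 𝔫 I a m (hfin (m + 1)) prev.1 prev.2)).2⟩) m
  have hseq : ∀ m, (seq (m + 1)).1 - (seq m).1 ∈ 𝔫 ^ m := fun m =>
    (Classical.choose_spec (compactGood_step 𝔫 I a m (hfin (m + 1)) (seq m).1 (seq m).2)).1
  -- Cauchy
  have hcauchy : ∀ {m n : ℕ}, m ≤ n →
      (seq m).1 ≡ (seq n).1 [SMOD (𝔫 ^ m • ⊤ : Submodule S S)] := by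
    intro m n hmn
    induction n, hmn using Nat.le_induction with
    | base => exact SModEq.refl _
    | succ n hmn ih =>
      refine ih.trans ?_
      rw [SModEq.sub_mem, smul_eq_mul, Ideal.mul_top]
      have := Ideal.pow_le_pow_right (I := 𝔫) hmn (hseq n)
      rw [← neg_sub]
      exact neg_mem this
  obtain ⟨L, hL⟩ := IsPrecomplete.prec ‹IsPrecomplete 𝔫 S› (f := fun m => (seq m).1) hcauchy
  refine ⟨L, fun j => ?_⟩
  obtain ⟨m, hm⟩ := hopen j
  obtain ⟨f', hf'c, hf'j⟩ := (seq m).2 {j}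
  have hLm : (seq m).1 - L ∈ 𝔫 ^ m := by
    have := hL m
    rwa [SModEq.sub_mem, smul_eq_mul, Ideal.mul_top] at this
  have : L - a j = -((seq m).1 - L) + -(f' - (seq m).1) + (f' - a j) := by ring
  rw [this]
  refine Ideal.add_mem _ (Ideal.add_mem _ ?_ ?_) (hf'j j (Finset.mem_singleton_self j))
  · exact neg_mem (hm hLm)
  · exact neg_mem (hm hf'c)

/-- Version for a family of ring homomorphisms with open kernels: a "coherent" family of values
`x j ∈ A j` (every finite subfamily is hit by a single `f`) is hit by a single `f`. -/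
theorem exists_forall_map_eq_of_finite_quotients [IsPrecomplete 𝔫 S]
    (hfin : ∀ m : ℕ, Finite (S ⧸ 𝔫 ^ m))
    {A : ι → Type*} [∀ j, CommRing (A j)] (Φ : ∀ j, S →+* A j) (x : ∀ j, A j)
    (hopen : ∀ j, ∃ m : ℕ, 𝔫 ^ m ≤ RingHom.ker (Φ j))
    (hfip : ∀ F : Finset ι, ∃ f : S, ∀ j ∈ F, Φ j f = x j) :
    ∃ f : S, ∀ j, Φ j f = x j := by
  classical
  have hex : ∀ j, ∃ b : S, Φ j b = x j := fun j => by
    obtain ⟨f, hf⟩ := hfip {j}
    exact ⟨f, hf j (Finset.mem_singleton_self j)⟩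
  choose b hb using hex
  obtain ⟨f, hf⟩ := exists_forall_sub_mem_of_finite_quotients 𝔫 (fun j => RingHom.ker (Φ j)) b hfin
    hopen (fun F => by
      obtain ⟨f, hf⟩ := hfip F
      refine ⟨f, fun j hj => ?_⟩
      rw [RingHom.mem_ker, map_sub, hf j hj, hb j, sub_self])
  refine ⟨f, fun j => ?_⟩
  have := hf j
  rw [RingHom.mem_ker, map_sub, sub_eq_zero] at this
  rw [this, hb j]

/-- **Chevalley's lemma** (directed version).  For a directed family of open ideals `K j` of a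
precomplete ring `S` with finite quotients `S ⧸ 𝔫 ^ m`, every `(⨅ j, K j) ⊔ 𝔫 ^ m` contains
some `K j`. -/
theorem exists_le_iInf_sup_pow [IsPrecomplete 𝔫 S]
    (hfin : ∀ m : ℕ, Finite (S ⧸ 𝔫 ^ m)) (K : ι → Ideal S)
    (hopen : ∀ j, ∃ m : ℕ, 𝔫 ^ m ≤ K j)
    (hdir : ∀ F : Finset ι, ∃ j₀, ∀ j ∈ F, K j₀ ≤ K j) (m : ℕ) :
    ∃ j, K j ≤ (⨅ j, K j) ⊔ 𝔫 ^ m := by
  classical
  have := hfin m
  -- images of the `K j` in the finite ring `S ⧸ 𝔫 ^ m`
  let T : ι → Set (S ⧸ 𝔫 ^ m) := fun j => (Ideal.Quotient.mk (𝔫 ^ m)) '' (K j : Set S)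
  obtain ⟨j₁, -, hmin⟩ : ∃ j₁, j₁ ∈ (Set.univ : Set ι) ∧
      ∀ j ∈ (Set.univ : Set ι), (T j).ncard ≤ (T j₁).ncard → (T j₁).ncard ≤ (T j).ncard := by
    obtain ⟨j₀, -⟩ := hdir ∅
    have hwf := (measure fun j : ι => (T j).ncard).wf
    obtain ⟨j₁, hj₁, hj₁min⟩ := hwf.has_min (Set.univ : Set ι) ⟨j₀, Set.mem_univ _⟩
    exact ⟨j₁, hj₁, fun j hj _ => not_lt.mp (hj₁min j hj)⟩
  have hsub : ∀ j, T j₁ ⊆ T j := by
    intro j
    obtain ⟨j', hj'⟩ := hdir {j, j₁}
    have h1 : T j' ⊆ T j₁ := Set.image_mono (hj' j₁ (by simp))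
    have h2 : T j' ⊆ T j := Set.image_mono (hj' j (by simp))
    have h3 : T j' = T j₁ := by
      refine Set.eq_of_subset_of_ncard_le h1 ?_ (Set.toFinite _)
      exact hmin j' (Set.mem_univ _) (Set.ncard_le_ncard h1 (Set.toFinite _))
    exact h3 ▸ h2
  refine ⟨j₁, fun x hx => ?_⟩
  have hx' : ∀ j, ∃ y ∈ K j, y - x ∈ 𝔫 ^ m := by
    intro j
    have : Ideal.Quotient.mk (𝔫 ^ m) x ∈ T j := hsub j ⟨x, hx, rfl⟩
    obtain ⟨y, hy, hyx⟩ := this
    exact ⟨y, hy, Ideal.Quotient.eq.mp hyx⟩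
  -- compactness with one extra index
  obtain ⟨f, hf⟩ := exists_forall_sub_mem_of_finite_quotients 𝔫
    (fun o : Option ι => o.elim (𝔫 ^ m) K) (fun o : Option ι => o.elim x fun _ => 0) hfin
    (fun o => by
      cases o with
      | none => exact ⟨m, le_rfl⟩
      | some j => exact hopen j)
    (fun F => by
      obtain ⟨j', hj'⟩ := hdir (F.eraseNone)
      obtain ⟨y, hy, hyx⟩ := hx' j'
      refine ⟨y, fun o ho => ?_⟩
      cases o with
      | none => exact hyx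
      | some j =>
        simp only [Option.elim_some, sub_zero]
        exact hj' j (Finset.mem_eraseNone.mpr ho) hy)
  have hfK : f ∈ ⨅ j, K j := by
    rw [Ideal.mem_iInf]
    intro j
    have := hf (some j)
    simpa using this
  have hfx : f - x ∈ 𝔫 ^ m := hf none
  have : x = f + -(f - x) := by ring
  rw [this]
  exact Ideal.add_mem _ (Ideal.mem_sup_left hfK) (Ideal.mem_sup_right (neg_mem hfx))

end Compact

end Fermat.Agent.Lib.S53
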