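/-
S53: the `𝒪`-algebra structure on the dual numbers `k[ε]` used in `GaloisRep.TangentFinite`,
and basic facts about it.
-/
import Mathlib
import Fermat.Agent.Lib.S53.Defs

set_option autoImplicit false
set_option linter.unusedSectionVars false

namespace Fermat.Agent.Lib.S53

open IsLocalRing DualNumber TrivSqZeroExt GaloisRep

section DualAlg

variable (𝒪 : Type) [CommRing 𝒪] [IsLocalRing 𝒪]

/-- The `𝒪`-algebra structure on `k[ε]` used in `TangentFinite` (a `letI` there).  NOT the global
`TrivSqZeroExt.algebra'` instance (same `algebraMap`, different `smul`). Use as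
`attribute [local instance 10000] dualAlg` or `letI := dualAlg 𝒪`. -/
@[reducible] noncomputable def dualAlg : Algebra 𝒪 (DualNumber (ResidueField 𝒪)) :=
  ((algebraMap (ResidueField 𝒪) (DualNumber (ResidueField 𝒪))).comp
    (algebraMap 𝒪 (ResidueField 𝒪))).toAlgebra

/-- The `k`-algebra structure on the residue field of `k[ε]` used in `TangentFinite`. -/
@[reducible] noncomputable def dualResAlg :
    Algebra (ResidueField 𝒪) (ResidueField (DualNumber (ResidueField 𝒪))) :=
  ((IsLocalRing.residue (DualNumber (ResidueField 𝒪))).comp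
    (algebraMap (ResidueField 𝒪) (DualNumber (ResidueField 𝒪)))).toAlgebra

attribute [local instance 10000] dualAlg

theorem dualAlg_algebraMap_apply (o : 𝒪) :
    algebraMap 𝒪 (DualNumber (ResidueField 𝒪)) o = inl (residue 𝒪 o) := rfl

theorem isLocalHom_dualAlg : IsLocalHom (algebraMap 𝒪 (DualNumber (ResidueField 𝒪))) := by
  refine ⟨fun o ho => ?_⟩
  rw [dualAlg_algebraMap_apply, TrivSqZeroExt.isUnit_inl_iff] at ho
  by_contra h
  exact ho.ne_zero ((residue_eq_zero_iff o).mpr h)

theorem residue_dualNumber_surjective :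
    Function.Surjective (residue (DualNumber (ResidueField 𝒪)) ∘
      algebraMap 𝒪 (DualNumber (ResidueField 𝒪))) := by
  intro y
  obtain ⟨d, rfl⟩ := residue_surjective y
  obtain ⟨o, ho⟩ := residue_surjective (R := 𝒪) d.fst
  refine ⟨o, ?_⟩
  rw [Function.comp_apply, dualAlg_algebraMap_apply, ho, ← sub_eq_zero, ← map_sub,
    residue_eq_zero_iff, DualNumber.maximalIdeal_eq_span_singleton_eps,
    Ideal.mem_span_singleton, ← DualNumber.fst_eq_zero_iff_eps_dvd]
  simp

instance isArtinianRing_dualNumber (k : Type) [Field k] : IsArtinianRing (DualNumber k) := by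
  rw [isArtinianRing_iff_isNilpotent_maximalIdeal]
  refine ⟨2, ?_⟩
  rw [DualNumber.maximalIdeal_eq_span_singleton_eps, Ideal.span_singleton_pow, pow_two,
    DualNumber.eps_mul_eps]
  simp

theorem isArtinianTestAlgebra_dualNumber :
    IsArtinianTestAlgebra 𝒪 (DualNumber (ResidueField 𝒪)) :=
  ⟨isLocalHom_dualAlg 𝒪, residue_dualNumber_surjective 𝒪, inferInstance⟩

variable {𝒪}

/-- The set of rigid lifts of type `𝒟` over the dual numbers (with the `TangentFinite` algebra
structure). -/
def RigidDual {ρbar : ResidualGaloisRep (ResidueField 𝒪)} (F : Frame 𝒪 ρbar)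
    (𝒟 : ∀ ⦃A : Type⦄ [CommRing A] [IsLocalRing A] [Algebra 𝒪 A], GaloisRepAdic A → Prop) : Type :=
  haveI := isLocalHom_dualAlg 𝒪
  {t : MatRep (DualNumber (ResidueField 𝒪)) // IsRigid F t ∧ 𝒟 t.toGaloisRepAdic}

end DualAlg

end Fermat.Agent.Lib.S53
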