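/-
S53, ring lemma (DN): homomorphisms from a local test algebra to the dual numbers.
If `x ∈ 𝔪_A` is not in `J + 𝔪_A² + 𝔪_𝒪 A` then there is a surjective ring hom `A → k[ε]`,
compatible with `𝒪 → k → k[ε]`, killing `J` and sending `x` to `ε`.
-/
import Mathlib
import Fermat.Agent.Lib.S53.Defs

set_option autoImplicit false
set_option linter.unusedSectionVars false

namespace Fermat.Agent.Lib.S53

open IsLocalRing DualNumber TrivSqZeroExt

section DN

variable {𝒪 : Type} [CommRing 𝒪] [IsLocalRing 𝒪]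
variable {A : Type} [CommRing A] [IsLocalRing A] [Algebra 𝒪 A] [IsLocalHom (algebraMap 𝒪 A)]

/-- An ideal maximal among those between `J₀` and `𝔪` avoiding `x`. -/
theorem exists_max_ideal_avoiding [IsNoetherianRing A] (J₀ : Ideal A) (x : A)
    (hJ₀ : J₀ ≤ maximalIdeal A) (hx : x ∉ J₀) :
    ∃ N : Ideal A, J₀ ≤ N ∧ N ≤ maximalIdeal A ∧ x ∉ N ∧
      ∀ N' : Ideal A, N ≤ N' → N' ≤ maximalIdeal A → x ∉ N' → N' = N := by
  have hne : ({N : Ideal A | J₀ ≤ N ∧ N ≤ maximalIdeal A ∧ x ∉ N} : Set (Ideal A)).Nonempty :=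
    ⟨J₀, le_refl _, hJ₀, hx⟩
  obtain ⟨N, ⟨h1, h2, h3⟩, hmax⟩ :=
    (set_has_maximal_iff_noetherian (R := A) (M := A)).mpr inferInstance _ hne
  refine ⟨N, h1, h2, h3, fun N' hNN' hN'm hxN' => ?_⟩
  by_contra hne'
  exact hmax N' ⟨h1.trans hNN', hN'm, hxN'⟩ (lt_of_le_of_ne hNN' (Ne.symm hne'))

/-- With `N` maximal as above and `𝔪² ≤ N`, the maximal ideal is `N + (x)`. -/
theorem exists_sub_mul_mem_of_max (N : Ideal A) (x : A)
    (hNm : N ≤ maximalIdeal A) (hsq : maximalIdeal A ^ 2 ≤ N) (hxN : x ∉ N)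
    (hmax : ∀ N' : Ideal A, N ≤ N' → N' ≤ maximalIdeal A → x ∉ N' → N' = N)
    (y : A) (hy : y ∈ maximalIdeal A) : ∃ a : A, y - a * x ∈ N := by
  by_cases hxN' : x ∈ N ⊔ Ideal.span {y}
  · obtain ⟨n, hn, z, hz, hnz⟩ := Submodule.mem_sup.mp hxN'
    obtain ⟨b, rfl⟩ := Ideal.mem_span_singleton'.mp hz
    by_cases hb : IsUnit b
    · obtain ⟨u, rfl⟩ := hb
      refine ⟨↑u⁻¹, ?_⟩
      have : y - ↑u⁻¹ * x = -(↑u⁻¹ * n) := by
        rw [← hnz, mul_add, ← mul_assoc, Units.inv_mul, one_mul]; ring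
      rw [this]
      exact N.neg_mem (N.mul_mem_left _ hn)
    · exfalso
      apply hxN
      rw [← hnz]
      refine N.add_mem hn (hsq ?_)
      rw [pow_two]
      exact Ideal.mul_mem_mul ((mem_maximalIdeal _).mpr hb) hy
  · have := hmax (N ⊔ Ideal.span {y}) le_sup_left
      (sup_le hNm ((Ideal.span_singleton_le_iff_mem _).mpr hy)) hxN'
    refine ⟨0, ?_⟩
    rw [zero_mul, sub_zero, ← this]
    exact Ideal.mem_sup_right (Ideal.mem_span_singleton_self y)

/-- **Lemma (DN)**: a hom to the dual numbers detecting a given cotangent direction. -/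
theorem exists_hom_dualNumber [IsNoetherianRing A]
    (hsurj : Function.Surjective (residue A ∘ algebraMap 𝒪 A))
    (J : Ideal A) (hJ : J ≤ maximalIdeal A) (x : A) (hx : x ∈ maximalIdeal A)
    (hxJ : x ∉ J ⊔ maximalIdeal A ^ 2 ⊔ (maximalIdeal 𝒪).map (algebraMap 𝒪 A)) :
    ∃ φ : A →+* DualNumber (ResidueField 𝒪),
      (∀ o : 𝒪, φ (algebraMap 𝒪 A o) = inl (residue 𝒪 o)) ∧ (∀ y ∈ J, φ y = 0) ∧
      φ x = ε ∧ Function.Surjective φ := by
  classical
  have hpi : (maximalIdeal 𝒪).map (algebraMap 𝒪 A) ≤ maximalIdeal A :=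
    Ideal.map_le_iff_le_comap.mpr fun a ha => Ideal.mem_comap.mpr (map_nonunit _ a ha)
  have hJ₀ : J ⊔ maximalIdeal A ^ 2 ⊔ (maximalIdeal 𝒪).map (algebraMap 𝒪 A) ≤ maximalIdeal A :=
    sup_le (sup_le hJ (Ideal.pow_le_self two_ne_zero)) hpi
  obtain ⟨N, hJN, hNm, hxN, hmax⟩ := exists_max_ideal_avoiding _ x hJ₀ hxJ
  have hJN' : J ≤ N := (le_sup_left.trans le_sup_left).trans hJN
  have hsqN : maximalIdeal A ^ 2 ≤ N := (le_sup_right.trans le_sup_left).trans hJN
  have hpiN : (maximalIdeal 𝒪).map (algebraMap 𝒪 A) ≤ N := le_sup_right.trans hJN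
  have hdecomp := exists_sub_mul_mem_of_max N x hNm hsqN hxN hmax
  -- every element is congruent to a constant modulo `𝔪`
  have hconst : ∀ a : A, ∃ o : 𝒪, a - algebraMap 𝒪 A o ∈ maximalIdeal A := by
    intro a
    obtain ⟨o, ho⟩ := hsurj (residue A a)
    refine ⟨o, ?_⟩
    rw [← Ideal.Quotient.eq_zero_iff_mem, map_sub, sub_eq_zero]
    exact ho.symm
  -- the quotient
  let B := A ⧸ N
  let κ : ResidueField 𝒪 →+* B :=
    Ideal.Quotient.lift (maximalIdeal 𝒪) ((Ideal.Quotient.mk N).comp (algebraMap 𝒪 A))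
      (fun a ha => by
        rw [RingHom.comp_apply, Ideal.Quotient.eq_zero_iff_mem]
        exact hpiN (Ideal.mem_map_of_mem _ ha))
  have hκ : ∀ o : 𝒪, κ (residue 𝒪 o) = Ideal.Quotient.mk N (algebraMap 𝒪 A o) := fun o => rfl
  let _ : Algebra (ResidueField 𝒪) B := κ.toAlgebra
  have halg : ∀ c : ResidueField 𝒪, algebraMap (ResidueField 𝒪) B c = κ c := fun c => rfl
  have hx2 : Ideal.Quotient.mk N x * Ideal.Quotient.mk N x = 0 := by
    rw [← map_mul, Ideal.Quotient.eq_zero_iff_mem]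
    apply hsqN
    rw [pow_two]
    exact Ideal.mul_mem_mul hx hx
  let ψ : DualNumber (ResidueField 𝒪) →ₐ[ResidueField 𝒪] B :=
    DualNumber.lift ⟨(Algebra.ofId (ResidueField 𝒪) B, Ideal.Quotient.mk N x), hx2,
      fun _ => Commute.all _ _⟩
  have hψ : ∀ a : DualNumber (ResidueField 𝒪),
      ψ a = κ a.fst + κ a.snd * Ideal.Quotient.mk N x := fun a => rfl
  have hinj : Function.Injective ψ := by
    rw [injective_iff_map_eq_zero]
    intro a ha
    rw [hψ] at ha
    obtain ⟨oa, hoa⟩ := residue_surjective a.fst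
    obtain ⟨ob, hob⟩ := residue_surjective a.snd
    rw [← hoa, ← hob, hκ, hκ, ← map_mul, ← map_add, Ideal.Quotient.eq_zero_iff_mem] at ha
    have h1 : algebraMap 𝒪 A oa ∈ maximalIdeal A := by
      have := (maximalIdeal A).sub_mem (hNm ha) (Ideal.mul_mem_left _ (algebraMap 𝒪 A ob) hx)
      simpa using this
    have h2 : oa ∈ maximalIdeal 𝒪 := by
      by_contra h
      have hu : IsUnit oa := by
        by_contra h'
        exact h ((mem_maximalIdeal _).mpr h')
      exact (mem_maximalIdeal _).mp h1 (hu.map _)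
    have h3 : algebraMap 𝒪 A ob * x ∈ N := by
      have := N.sub_mem ha (hpiN (Ideal.mem_map_of_mem _ h2))
      simpa using this
    have h4 : ob ∈ maximalIdeal 𝒪 := by
      by_contra h
      have hu : IsUnit ob := by
        by_contra h'
        exact h ((mem_maximalIdeal _).mpr h')
      obtain ⟨u, hu'⟩ := hu.map (algebraMap 𝒪 A)
      apply hxN
      have := N.mul_mem_left (↑u⁻¹) h3
      rwa [← hu', ← mul_assoc, Units.inv_mul, one_mul] at this
    ext
    · rw [← hoa, fst_zero]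
      exact (residue_eq_zero_iff _).mpr h2
    · rw [← hob, snd_zero]
      exact (residue_eq_zero_iff _).mpr h4
  have hsurjψ : Function.Surjective ψ := by
    intro b
    obtain ⟨a, rfl⟩ := Ideal.Quotient.mk_surjective b
    obtain ⟨o, ho⟩ := hconst a
    obtain ⟨c, hc⟩ := hdecomp _ ho
    obtain ⟨o', ho'⟩ := hconst c
    refine ⟨inl (residue 𝒪 o) + inr (residue 𝒪 o'), ?_⟩
    rw [hψ]
    simp only [fst_add, fst_inl, fst_inr, add_zero, snd_add, snd_inl, snd_inr, zero_add]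
    rw [hκ, hκ, ← map_mul, ← map_add]
    symm
    rw [Ideal.Quotient.eq]
    have h5 : (c - algebraMap 𝒪 A o') * x ∈ N := by
      apply hsqN
      rw [pow_two]
      exact Ideal.mul_mem_mul ho' hx
    have : a - (algebraMap 𝒪 A o + algebraMap 𝒪 A o' * x) =
        (a - algebraMap 𝒪 A o - c * x) + (c - algebraMap 𝒪 A o') * x := by ring
    rw [this]
    exact N.add_mem hc h5
  let e : DualNumber (ResidueField 𝒪) ≃+* B := RingEquiv.ofBijective ψ ⟨hinj, hsurjψ⟩
  have he : ∀ a, e a = ψ a := fun a => rfl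
  refine ⟨(e.symm : B →+* DualNumber (ResidueField 𝒪)).comp (Ideal.Quotient.mk N), ?_, ?_, ?_, ?_⟩
  · intro o
    rw [RingHom.comp_apply, RingHom.coe_coe, RingEquiv.symm_apply_eq, he, hψ]
    simp only [fst_inl, snd_inl, map_zero, zero_mul, add_zero, hκ]
  · intro y hy
    rw [RingHom.comp_apply, Ideal.Quotient.eq_zero_iff_mem.mpr (hJN' hy), map_zero]
  · rw [RingHom.comp_apply, RingHom.coe_coe, RingEquiv.symm_apply_eq, he, hψ]
    simp
  · exact e.symm.surjective.comp Ideal.Quotient.mk_surjective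

end DN

end Fermat.Agent.Lib.S53
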