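/-
S53, step 3 (tangent bound): from the finiteness of the set of rigid lifts of type `𝒟` over the
dual numbers we produce a finite family of indices `idx` such that, for every rigid pair `(A, ρ)`
of type `𝒟` over an Artinian test algebra generated by the entries of `ρ`, the algebra `A` is
already generated by the entries `ρ.r (idx c)`.
-/
import Mathlib
import Fermat.Agent.Lib.S53.Defs
import Fermat.Agent.Lib.S53.DualAlg
import Fermat.Agent.Lib.S53.DualQuot
import Fermat.Agent.Lib.Helper4.S53Assembly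
import Fermat.Agent.Lib.Helper6.S53Dict

set_option autoImplicit false
set_option linter.unusedSectionVars false

namespace Fermat.Agent.Lib.S53

open IsLocalRing DualNumber TrivSqZeroExt GaloisRep

attribute [local instance 10000] dualAlg

section Tangent

variable {𝒪 : Type} [CommRing 𝒪] [IsLocalRing 𝒪]
variable {ρbar : ResidualGaloisRep (ResidueField 𝒪)} (F : Frame 𝒪 ρbar)
variable (𝒟 : ∀ ⦃A : Type⦄ [CommRing A] [IsLocalRing A] [Algebra 𝒪 A], GaloisRepAdic A → Prop)

/-- Index type of matrix entries. -/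
abbrev EIdx : Type := GQ × Fin 2 × Fin 2

/-- The entry of a matrix representation at an index. -/
@[reducible] noncomputable def MatRep.entry {A : Type} [CommRing A] [IsLocalRing A] (ρ : MatRep A) (x : EIdx) : A :=
  ρ.r x.1 x.2.1 x.2.2

/-- A finite family of indices detecting non-triviality of rigid lifts over the dual numbers. -/
theorem exists_detecting_indices [Finite (RigidDual F 𝒟)] :
    ∃ (m : ℕ) (idx : Fin m → EIdx), ∀ t : RigidDual F 𝒟,
      (∀ c, (t.1.entry (idx c)).snd = 0) → ∀ x : EIdx, (t.1.entry x).snd = 0 := by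
  classical
  obtain ⟨m, ⟨e⟩⟩ := Finite.exists_equiv_fin (RigidDual F 𝒟)
  let bad : RigidDual F 𝒟 → EIdx := fun t =>
    if h : ∃ x : EIdx, (t.1.entry x).snd ≠ 0 then h.choose else (1, 0, 0)
  refine ⟨m, fun c => bad (e.symm c), fun t ht x => ?_⟩
  by_contra hx
  have h : ∃ x : EIdx, (t.1.entry x).snd ≠ 0 := ⟨x, hx⟩
  have h1 : (t.1.entry (bad t)).snd ≠ 0 := by
    simp only [bad, dif_pos h]
    exact h.choose_spec
  apply h1
  have := ht (e t)
  simp only [e.symm_apply_apply] at this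
  exact this

variable {F 𝒟}

theorem entry_sub_lift_mem_maximalIdeal {A : Type} [CommRing A] [IsLocalRing A] [Algebra 𝒪 A]
    [IsLocalHom (algebraMap 𝒪 A)] (ρ : MatRep A) (hr : ReducesTo F ρ)
    (lift : EIdx → 𝒪) (hlift : ∀ x : EIdx, residue 𝒪 (lift x) = F.mat x.1 x.2.1 x.2.2)
    (x : EIdx) : ρ.entry x - algebraMap 𝒪 A (lift x) ∈ maximalIdeal A := by
  rw [← residue_eq_zero_iff, map_sub, sub_eq_zero]
  have := hr x.1 x.2.1 x.2.2
  rw [← hlift x, ResidueField.map_residue] at this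
  exact this

/-- Modulo `𝔪² + 𝔪_𝒪 A`, every entry of a rigid lift of type `𝒟` is determined by the entries at
the detecting indices. -/
theorem entry_sub_lift_mem (h𝒟 : IsDeformationCondition 𝒪 𝒟) {m : ℕ} (idx : Fin m → EIdx)
    (hidx : ∀ t : RigidDual F 𝒟,
      (∀ c, (t.1.entry (idx c)).snd = 0) → ∀ x : EIdx, (t.1.entry x).snd = 0)
    {A : Type} [CommRing A] [IsLocalRing A] [Algebra 𝒪 A] [IsLocalHom (algebraMap 𝒪 A)]
    (hA : IsArtinianTestAlgebra 𝒪 A) (ρ : MatRep A) (hr : IsRigid F ρ)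
    (hD : 𝒟 ρ.toGaloisRepAdic)
    (lift : EIdx → 𝒪) (hlift : ∀ x : EIdx, residue 𝒪 (lift x) = F.mat x.1 x.2.1 x.2.2)
    (x : EIdx) :
    ρ.entry x - algebraMap 𝒪 A (lift x) ∈
      Ideal.span (Set.range fun c => ρ.entry (idx c) - algebraMap 𝒪 A (lift (idx c))) ⊔
        maximalIdeal A ^ 2 ⊔ (maximalIdeal 𝒪).map (algebraMap 𝒪 A) := by
  classical
  have hArt : IsArtinianRing A := hA.isArtinian
  set J : Ideal A :=
    Ideal.span (Set.range fun c => ρ.entry (idx c) - algebraMap 𝒪 A (lift (idx c))) with hJdef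
  have hJ : J ≤ maximalIdeal A := by
    rw [hJdef, Ideal.span_le]
    rintro _ ⟨c, rfl⟩
    exact entry_sub_lift_mem_maximalIdeal ρ hr.reduces lift hlift (idx c)
  by_contra hx
  obtain ⟨φ, hφalg, hφJ, hφx, hφsurj⟩ := exists_hom_dualNumber hA.residue_surjective J hJ _
    (entry_sub_lift_mem_maximalIdeal ρ hr.reduces lift hlift x) hx
  let φ' : A →ₐ[𝒪] DualNumber (ResidueField 𝒪) := { φ with commutes' := hφalg }
  have hφ' : ∀ a, φ' a = φ a := fun a => rfl
  have hφloc : IsLocalHom (φ' : A →+* DualNumber (ResidueField 𝒪)) :=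
    IsLocalHom.of_surjective _ hφsurj
  have hloc := isLocalHom_dualAlg 𝒪
  have hDA := isArtinianTestAlgebra_dualNumber 𝒪
  have ht1 : IsRigid F (ρ.map (φ' : A →+* DualNumber (ResidueField 𝒪)) hφloc) :=
    Fermat.Agent.Lib.Helper4.S53.isRigid_map F φ' hφloc hr
  have ht2 : 𝒟 (ρ.map (φ' : A →+* DualNumber (ResidueField 𝒪)) hφloc).toGaloisRepAdic :=
    h𝒟.of_isEquiv hDA (Fermat.Agent.Lib.Helper6.dict_isEquiv_baseChange _ hφloc ρ)
      (h𝒟.baseChangeAlong hA hDA φ' hφloc hD)
  let T : RigidDual F 𝒟 := ⟨ρ.map (φ' : A →+* DualNumber (ResidueField 𝒪)) hφloc, ht1, ht2⟩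
  have hentry : ∀ y : EIdx, T.1.entry y = φ (ρ.entry y) := fun y => rfl
  have hsplit : ∀ y : EIdx, φ (ρ.entry y) =
      φ (ρ.entry y - algebraMap 𝒪 A (lift y)) + inl (residue 𝒪 (lift y)) := by
    intro y
    rw [map_sub, hφalg, sub_add_cancel]
  have h0 : ∀ c, (T.1.entry (idx c)).snd = 0 := by
    intro c
    rw [hentry, hsplit, hφJ _ (Ideal.subset_span ⟨c, rfl⟩)]
    simp
  have h1 := hidx T h0 x
  rw [hentry, hsplit, hφx] at h1
  simp at h1

end Tangent

section Generation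

variable {𝒪 : Type} [CommRing 𝒪] [IsLocalRing 𝒪]
variable {A : Type} [CommRing A] [IsLocalRing A] [Algebra 𝒪 A]

/-- If the maximal ideal of a local `𝒪`-algebra with residue field generated by `𝒪` is nilpotent
and generated by elements of a subalgebra `B`, then `B = ⊤`. -/
theorem subalgebra_eq_top_of_maximalIdeal_span
    (hsurj : Function.Surjective (residue A ∘ algebraMap 𝒪 A))
    (hnil : ∃ n : ℕ, maximalIdeal A ^ n = ⊥) (B : Subalgebra 𝒪 A) (G : Set A)
    (hGB : G ⊆ B) (hG : maximalIdeal A = Ideal.span G) : B = ⊤ := by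
  have hGm : ∀ g ∈ G, g ∈ maximalIdeal A := fun g hg => hG ▸ Ideal.subset_span hg
  have hconst : ∀ a : A, ∃ o : 𝒪, a - algebraMap 𝒪 A o ∈ maximalIdeal A := by
    intro a
    obtain ⟨o, ho⟩ := hsurj (residue A a)
    refine ⟨o, ?_⟩
    rw [← residue_eq_zero_iff, map_sub, sub_eq_zero]
    exact ho.symm
  -- the key step
  have hP : ∀ n : ℕ, ∀ y ∈ maximalIdeal A ^ n, ∃ b ∈ B, y - b ∈ maximalIdeal A ^ (n + 1) := by
    intro n
    induction n with
    | zero =>
      intro y _
      obtain ⟨o, ho⟩ := hconst y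
      exact ⟨algebraMap 𝒪 A o, B.algebraMap_mem o, by simpa using ho⟩
    | succ n ih =>
      intro y hy
      rw [pow_succ] at hy
      refine Submodule.mul_induction_on hy ?_ ?_
      · intro z hz w hw
        rw [hG] at hw
        revert z
        refine Submodule.span_induction (p := fun w _ => ∀ z ∈ maximalIdeal A ^ n,
          ∃ b ∈ B, z * w - b ∈ maximalIdeal A ^ (n + 1 + 1)) ?_ ?_ ?_ ?_ hw
        · intro g hg z hz
          obtain ⟨b, hb, hzb⟩ := ih z hz
          refine ⟨b * g, B.mul_mem hb (hGB hg), ?_⟩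
          have : z * g - b * g = (z - b) * g := by ring
          rw [this, pow_succ _ (n + 1)]
          exact Ideal.mul_mem_mul hzb (hGm g hg)
        · intro z _
          exact ⟨0, B.zero_mem, by simp⟩
        · intro w1 w2 _ _ h1 h2 z hz
          obtain ⟨b1, hb1, h1'⟩ := h1 z hz
          obtain ⟨b2, hb2, h2'⟩ := h2 z hz
          refine ⟨b1 + b2, B.add_mem hb1 hb2, ?_⟩
          have : z * (w1 + w2) - (b1 + b2) = (z * w1 - b1) + (z * w2 - b2) := by ring
          rw [this]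
          exact Ideal.add_mem _ h1' h2'
        · intro a w1 _ h1 z hz
          obtain ⟨b, hb, hb'⟩ := h1 (z * a) (Ideal.mul_mem_right _ _ hz)
          refine ⟨b, hb, ?_⟩
          have : z * a • w1 - b = z * a * w1 - b := by rw [smul_eq_mul]; ring
          rw [this]
          exact hb'
      · intro y1 y2 h1 h2
        obtain ⟨b1, hb1, h1'⟩ := h1
        obtain ⟨b2, hb2, h2'⟩ := h2
        refine ⟨b1 + b2, B.add_mem hb1 hb2, ?_⟩
        have : y1 + y2 - (b1 + b2) = (y1 - b1) + (y2 - b2) := by ring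
        rw [this]
        exact Ideal.add_mem _ h1' h2'
  have hall : ∀ n : ℕ, ∀ y : A, ∃ b ∈ B, y - b ∈ maximalIdeal A ^ n := by
    intro n
    induction n with
    | zero => intro y; exact ⟨0, B.zero_mem, by simp⟩
    | succ n ih =>
      intro y
      obtain ⟨b, hb, hyb⟩ := ih y
      obtain ⟨b', hb', h'⟩ := hP n _ hyb
      refine ⟨b + b', B.add_mem hb hb', ?_⟩
      have : y - (b + b') = y - b - b' := by ring
      rw [this]
      exact h'
  obtain ⟨n, hn⟩ := hnil
  rw [eq_top_iff]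
  intro y _
  obtain ⟨b, hb, hyb⟩ := hall n y
  rw [hn, Ideal.mem_bot, sub_eq_zero] at hyb
  rw [hyb]
  exact hb

end Generation

section Main

variable {𝒪 : Type} [CommRing 𝒪] [IsLocalRing 𝒪]
variable {ρbar : ResidualGaloisRep (ResidueField 𝒪)} {F : Frame 𝒪 ρbar}
variable {𝒟 : ∀ ⦃A : Type⦄ [CommRing A] [IsLocalRing A] [Algebra 𝒪 A], GaloisRepAdic A → Prop}

/-- (i) the maximal ideal is generated by `𝔪_𝒪` and the shifted entries at the detecting indices. -/
theorem maximalIdeal_eq_of_detecting (h𝒟 : IsDeformationCondition 𝒪 𝒟) {m : ℕ} (idx : Fin m → EIdx)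
    (hidx : ∀ t : RigidDual F 𝒟,
      (∀ c, (t.1.entry (idx c)).snd = 0) → ∀ x : EIdx, (t.1.entry x).snd = 0)
    {A : Type} [CommRing A] [IsLocalRing A] [Algebra 𝒪 A] [IsLocalHom (algebraMap 𝒪 A)]
    (hA : IsArtinianTestAlgebra 𝒪 A) (ρ : MatRep A) (hr : IsRigid F ρ)
    (hD : 𝒟 ρ.toGaloisRepAdic)
    (hgen : Algebra.adjoin 𝒪 (Set.range ρ.entry) = ⊤)
    (lift : EIdx → 𝒪) (hlift : ∀ x : EIdx, residue 𝒪 (lift x) = F.mat x.1 x.2.1 x.2.2) :
    maximalIdeal A =
      Ideal.span (Set.range fun c => ρ.entry (idx c) - algebraMap 𝒪 A (lift (idx c))) ⊔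
        (maximalIdeal 𝒪).map (algebraMap 𝒪 A) := by
  have hArt : IsArtinianRing A := hA.isArtinian
  set J : Ideal A :=
    Ideal.span (Set.range fun c => ρ.entry (idx c) - algebraMap 𝒪 A (lift (idx c))) with hJdef
  set K : Ideal A :=
    Ideal.span (Set.range fun y : EIdx => ρ.entry y - algebraMap 𝒪 A (lift y)) with hKdef
  have hpi : (maximalIdeal 𝒪).map (algebraMap 𝒪 A) ≤ maximalIdeal A :=
    Ideal.map_le_iff_le_comap.mpr fun a ha => Ideal.mem_comap.mpr (map_nonunit _ a ha)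
  have hJ : J ≤ maximalIdeal A := by
    rw [hJdef, Ideal.span_le]
    rintro _ ⟨c, rfl⟩
    exact entry_sub_lift_mem_maximalIdeal ρ hr.reduces lift hlift (idx c)
  have hKm : K ≤ maximalIdeal A := by
    rw [hKdef, Ideal.span_le]
    rintro _ ⟨y, rfl⟩
    exact entry_sub_lift_mem_maximalIdeal ρ hr.reduces lift hlift y
  have hKJ : K ≤ J ⊔ maximalIdeal A ^ 2 ⊔ (maximalIdeal 𝒪).map (algebraMap 𝒪 A) := by
    rw [hKdef, Ideal.span_le]
    rintro _ ⟨y, rfl⟩
    exact entry_sub_lift_mem h𝒟 idx hidx hA ρ hr hD lift hlift y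
  -- every element is a constant modulo `K`
  have hconst : ∀ a : A, ∃ o : 𝒪, a - algebraMap 𝒪 A o ∈ K := by
    intro a
    have ha : a ∈ Algebra.adjoin 𝒪 (Set.range ρ.entry) := hgen ▸ Algebra.mem_top
    induction ha using Algebra.adjoin_induction with
    | mem x hx =>
      obtain ⟨y, rfl⟩ := hx
      exact ⟨lift y, Ideal.subset_span ⟨y, rfl⟩⟩
    | algebraMap r => exact ⟨r, by simp⟩
    | add x y _ _ hx hy =>
      obtain ⟨o1, h1⟩ := hx
      obtain ⟨o2, h2⟩ := hy
      refine ⟨o1 + o2, ?_⟩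
      have : x + y - algebraMap 𝒪 A (o1 + o2) =
          (x - algebraMap 𝒪 A o1) + (y - algebraMap 𝒪 A o2) := by rw [map_add]; ring
      rw [this]
      exact K.add_mem h1 h2
    | mul x y _ _ hx hy =>
      obtain ⟨o1, h1⟩ := hx
      obtain ⟨o2, h2⟩ := hy
      refine ⟨o1 * o2, ?_⟩
      have : x * y - algebraMap 𝒪 A (o1 * o2) =
          (x - algebraMap 𝒪 A o1) * y + algebraMap 𝒪 A o1 * (y - algebraMap 𝒪 A o2) := by
        rw [map_mul]; ring
      rw [this]
      exact K.add_mem (K.mul_mem_right _ h1) (K.mul_mem_left _ h2)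
  have hmK : maximalIdeal A ≤ K ⊔ (maximalIdeal 𝒪).map (algebraMap 𝒪 A) := by
    intro a ha
    obtain ⟨o, ho⟩ := hconst a
    have h1 : algebraMap 𝒪 A o ∈ maximalIdeal A := by
      have := (maximalIdeal A).sub_mem ha (hKm ho)
      simpa using this
    have h2 : o ∈ maximalIdeal 𝒪 := by
      by_contra h
      have hu : IsUnit o := by
        by_contra h'
        exact h ((mem_maximalIdeal _).mpr h')
      exact (mem_maximalIdeal _).mp h1 (hu.map _)
    have : a = (a - algebraMap 𝒪 A o) + algebraMap 𝒪 A o := by ring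
    rw [this]
    exact Ideal.add_mem _ (Ideal.mem_sup_left ho) (Ideal.mem_sup_right (Ideal.mem_map_of_mem _ h2))
  apply le_antisymm
  · -- Nakayama
    have hle : maximalIdeal A ≤
        (J ⊔ (maximalIdeal 𝒪).map (algebraMap 𝒪 A)) ⊔ maximalIdeal A • maximalIdeal A := by
      refine hmK.trans (sup_le (hKJ.trans ?_) (le_sup_right.trans le_sup_left))
      rw [smul_eq_mul, ← pow_two]
      refine sup_le (sup_le (le_sup_left.trans le_sup_left) le_sup_right)
        (le_sup_right.trans le_sup_left)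
    exact Submodule.le_of_le_smul_of_le_jacobson_bot (IsNoetherian.noetherian _)
      (IsLocalRing.jacobson_eq_maximalIdeal ⊥ bot_ne_top).ge hle
  · exact sup_le hJ hpi

/-- (ii) the algebra is generated by the entries at the detecting indices. -/
theorem adjoin_eq_top_of_detecting (h𝒟 : IsDeformationCondition 𝒪 𝒟) {m : ℕ} (idx : Fin m → EIdx)
    (hidx : ∀ t : RigidDual F 𝒟,
      (∀ c, (t.1.entry (idx c)).snd = 0) → ∀ x : EIdx, (t.1.entry x).snd = 0)
    {A : Type} [CommRing A] [IsLocalRing A] [Algebra 𝒪 A] [IsLocalHom (algebraMap 𝒪 A)]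
    (hA : IsArtinianTestAlgebra 𝒪 A) (ρ : MatRep A) (hr : IsRigid F ρ)
    (hD : 𝒟 ρ.toGaloisRepAdic)
    (hgen : Algebra.adjoin 𝒪 (Set.range ρ.entry) = ⊤) :
    Algebra.adjoin 𝒪 (Set.range fun c => ρ.entry (idx c)) = ⊤ := by
  have hArt : IsArtinianRing A := hA.isArtinian
  choose lift hlift using fun x : EIdx => residue_surjective (R := 𝒪) (F.mat x.1 x.2.1 x.2.2)
  have hm := maximalIdeal_eq_of_detecting h𝒟 idx hidx hA ρ hr hD hgen lift hlift
  have hnil : ∃ n : ℕ, maximalIdeal A ^ n = ⊥ := by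
    have := IsArtinianRing.isNilpotent_jacobson_bot (R := A)
    rw [IsLocalRing.jacobson_eq_maximalIdeal ⊥ bot_ne_top] at this
    exact this
  refine subalgebra_eq_top_of_maximalIdeal_span hA.residue_surjective hnil _
    ((Set.range fun c => ρ.entry (idx c) - algebraMap 𝒪 A (lift (idx c))) ∪
      (algebraMap 𝒪 A '' (maximalIdeal 𝒪 : Set 𝒪))) ?_ ?_
  · rintro g (⟨c, rfl⟩ | ⟨o, _, rfl⟩)
    · exact Subalgebra.sub_mem _ (Algebra.subset_adjoin ⟨c, rfl⟩) (Subalgebra.algebraMap_mem _ _)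
    · exact Subalgebra.algebraMap_mem _ _
  · rw [Ideal.span_union, hm]
    rfl

/-- **Tangent bound.** Finitely many entries generate every Artinian test algebra carrying a
rigid lift of type `𝒟` whose entries generate it. -/
theorem exists_tangent_generators (F : Frame 𝒪 ρbar) (h𝒟 : IsDeformationCondition 𝒪 𝒟)
    [Finite (RigidDual F 𝒟)] :
    ∃ (m : ℕ) (idx : Fin m → EIdx),
      ∀ ⦃A : Type⦄ [CommRing A] [IsLocalRing A] [Algebra 𝒪 A] [IsLocalHom (algebraMap 𝒪 A)],
        IsArtinianTestAlgebra 𝒪 A → ∀ ρ : MatRep A, IsRigid F ρ → 𝒟 ρ.toGaloisRepAdic →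
        Algebra.adjoin 𝒪 (Set.range ρ.entry) = ⊤ →
        Algebra.adjoin 𝒪 (Set.range fun c => ρ.entry (idx c)) = ⊤ ∧
        ∀ lift : EIdx → 𝒪, (∀ x : EIdx, residue 𝒪 (lift x) = F.mat x.1 x.2.1 x.2.2) →
          maximalIdeal A =
            Ideal.span (Set.range fun c => ρ.entry (idx c) - algebraMap 𝒪 A (lift (idx c))) ⊔
              (maximalIdeal 𝒪).map (algebraMap 𝒪 A) := by
  obtain ⟨m, idx, hidx⟩ := exists_detecting_indices F 𝒟
  refine ⟨m, idx, fun A _ _ _ _ hA ρ hr hD hgen => ⟨?_, fun lift hlift => ?_⟩⟩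
  · exact adjoin_eq_top_of_detecting h𝒟 idx hidx hA ρ hr hD hgen
  · exact maximalIdeal_eq_of_detecting h𝒟 idx hidx hA ρ hr hD hgen lift hlift

end Main

end Fermat.Agent.Lib.S53
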