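/-
S53 (universal deformation ring): the ring `R = lim_{I ∈ U} P ⧸ I` for the family `U = {I | InU F 𝒟 I}`.
Combines the tangent bound (`exists_tangent_generators`), the closure properties of `U`
(`inU_inf`) and the abstract pro-limit construction (`Helper5.nonempty_proLimitData_of_generators`).
-/
import Mathlib
import Fermat.Agent.Lib.S53.Defs
import Fermat.Agent.Lib.S53.Tangent
import Fermat.Agent.Lib.Helper9.S53U
import Fermat.Agent.Lib.Helper6.S53Tangent
import Fermat.Agent.Lib.Helper6.S53Residue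
import Fermat.Agent.Lib.Helper5.ProLimitGen

set_option autoImplicit false
set_option linter.style.haveILetI false

namespace Fermat.Agent.Lib.S53

open IsLocalRing GaloisRep

section UnivRing

variable {𝒪 : Type} [CommRing 𝒪] [IsLocalRing 𝒪]
variable {ρbar : ResidualGaloisRep (ResidueField 𝒪)} (F : Frame 𝒪 ρbar)
variable {𝒟 : ∀ ⦃A : Type⦄ [CommRing A] [IsLocalRing A] [Algebra 𝒪 A], GaloisRepAdic A → Prop}

omit [IsLocalRing 𝒪] in
/-- The entries of the tautological representation generate `P ⧸ I`. -/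
theorem adjoin_range_mk_X (I : Ideal (PolyRing 𝒪)) :
    Algebra.adjoin 𝒪 (Set.range fun x : Idx =>
      (Ideal.Quotient.mk I (MvPolynomial.X x) : PolyRing 𝒪 ⧸ I)) = ⊤ := by
  have h1 : (Set.range fun x : Idx => (Ideal.Quotient.mk I (MvPolynomial.X x) : PolyRing 𝒪 ⧸ I)) =
      (Ideal.Quotient.mkₐ 𝒪 I) '' Set.range (MvPolynomial.X : Idx → PolyRing 𝒪) := by
    rw [← Set.range_comp]
    rfl
  rw [h1, ← AlgHom.map_adjoin, MvPolynomial.adjoin_range_X, Algebra.map_top,
    AlgHom.range_eq_top]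
  exact Ideal.Quotient.mkₐ_surjective 𝒪 I

/-- **The universal ring as a pro-limit**, given that `U` is nonempty and the set of rigid lifts
of type `𝒟` over the dual numbers is finite. -/
theorem nonempty_proLimitData_inU [IsNoetherianRing 𝒪] [IsAdicComplete (maximalIdeal 𝒪) 𝒪]
    [Finite (ResidueField 𝒪)] (h𝒟 : IsDeformationCondition 𝒪 𝒟) [Finite (RigidDual F 𝒟)]
    (hne : ∃ I : Ideal (PolyRing 𝒪), InU F 𝒟 I) :
    Nonempty (Helper5.ProLimitData 𝒪 (PolyRing 𝒪) {I | InU F 𝒟 I}) := by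
  classical
  obtain ⟨m, idx, hidx⟩ := exists_tangent_generators F h𝒟
  choose lift hlift using fun x : EIdx => residue_surjective (R := 𝒪) (F.mat x.1 x.2.1 x.2.2)
  let p : Fin m → PolyRing 𝒪 := fun c => MvPolynomial.X (idx c) - MvPolynomial.C (lift (idx c))
  have hchi : ∀ c, chi F (p c) = 0 := by
    intro c
    show chi F (MvPolynomial.X (idx c) - MvPolynomial.C (lift (idx c))) = 0
    rw [map_sub, chi_C, hlift]
    obtain ⟨σ, a, b⟩ := idx c
    rw [chi_X, sub_self]
  refine Helper5.nonempty_proLimitData_of_generators {I | InU F 𝒟 I} hne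
    (fun I hI I' hI' => inU_inf h𝒟 hI hI') (fun I hI => hI.core.nilBelow.isLocalRing)
    (fun I hI => hI.core.artinian) m p ?_ ?_
  · intro I hI c
    rw [hI.core.nilBelow.isUnit_mk_iff, not_not]
    exact hchi c
  · intro I hI
    obtain ⟨hloc, hlh, hA, ρ, hρ, hrig, hD⟩ := hI
    have hent : (Set.range ρ.entry) = Set.range fun x : Idx =>
        (Ideal.Quotient.mk I (MvPolynomial.X x) : PolyRing 𝒪 ⧸ I) := by
      congr 1
      funext x
      obtain ⟨σ, a, b⟩ := x
      exact hρ σ a b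
    have hgen0 : Algebra.adjoin 𝒪 (Set.range ρ.entry) = ⊤ := by
      rw [hent]
      exact adjoin_range_mk_X I
    have h1 := (hidx hA ρ hrig hD hgen0).1
    rw [eq_top_iff, ← h1]
    refine Algebra.adjoin_le ?_
    rintro _ ⟨c, rfl⟩
    have h2 : ρ.entry (idx c) = Ideal.Quotient.mk I (p c) +
        algebraMap 𝒪 (PolyRing 𝒪 ⧸ I) (lift (idx c)) := by
      have h3 : ρ.entry (idx c) = Ideal.Quotient.mk I (MvPolynomial.X (idx c)) := by
        obtain ⟨σ, a, b⟩ := idx c
        exact hρ σ a b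
      rw [h3]
      show _ = Ideal.Quotient.mk I (MvPolynomial.X (idx c) - MvPolynomial.C (lift (idx c))) +
        Ideal.Quotient.mk I (MvPolynomial.C (lift (idx c)))
      rw [← map_add, sub_add_cancel]
    show ρ.entry (idx c) ∈ _
    rw [h2]
    exact Subalgebra.add_mem _ (Algebra.subset_adjoin ⟨c, rfl⟩) (Subalgebra.algebraMap_mem _ _)

/-- `U` is nonempty: the residual representation itself is a rigid lift of type `𝒟`. -/
theorem exists_inU_of_hbar [Finite (ResidueField 𝒪)] (h𝒟 : IsDeformationCondition 𝒪 𝒟)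
    (hbar : 𝒟 (GaloisRepAdic.ofResidualGaloisRep ρbar)) :
    ∃ I : Ideal (PolyRing 𝒪), InU F 𝒟 I :=
  ⟨_, ker_evalHom_inU h𝒟 Helper6.isArtinianTestAlgebra_residueField (Helper6.frameMatRep F)
    (Helper6.isRigid_frameMatRep F) (Helper6.type_frameMatRep F h𝒟 hbar)⟩

/-- **The universal ring as a pro-limit**, under the hypotheses of S53. -/
theorem nonempty_proLimitData_inU_of_tangentFinite [IsNoetherianRing 𝒪]
    [IsAdicComplete (maximalIdeal 𝒪) 𝒪] [Finite (ResidueField 𝒪)]
    (habs : ρbar.IsAbsolutelyIrreducible) (h𝒟 : IsDeformationCondition 𝒪 𝒟)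
    (hbar : 𝒟 (GaloisRepAdic.ofResidualGaloisRep ρbar))
    (hfin : TangentFinite 𝒪 ρbar 𝒟) :
    Nonempty (Helper5.ProLimitData 𝒪 (PolyRing 𝒪) {I | InU F 𝒟 I}) := by
  haveI : Finite (RigidDual F 𝒟) := Helper6.finite_rigidDual F habs hfin
  exact nonempty_proLimitData_inU F h𝒟 (exists_inU_of_hbar F h𝒟 hbar)

end UnivRing

end Fermat.Agent.Lib.S53
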